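import Mathlib

set_option autoImplicit false
set_option linter.style.haveILetI false

namespace Fermat.Agent.S49

open Module

/-- A commuting family of endomorphisms of a finite-dimensional vector space over an
algebraically closed field, stabilising a nonzero subspace `W`, has a common eigenvector
in `W`. -/
theorem exists_common_eigenvector {K V : Type*} [Field K] [IsAlgClosed K] [AddCommGroup V]
    [Module K V] [FiniteDimensional K V]
    (𝒜 : Set (Module.End K V)) (hcomm : ∀ T ∈ 𝒜, ∀ T' ∈ 𝒜, Commute T T')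
    (W : Submodule K V) (hW : W ≠ ⊥) (hstab : ∀ T ∈ 𝒜, ∀ w ∈ W, T w ∈ W) :
    ∃ v ∈ W, v ≠ 0 ∧ ∀ T ∈ 𝒜, ∃ μ : K, T v = μ • v := by
  classical
  -- the set of nonzero stable subspaces of `W`
  let P : Set (Submodule K V) :=
    {U | U ≠ ⊥ ∧ U ≤ W ∧ ∀ T ∈ 𝒜, ∀ u ∈ U, T u ∈ U}
  have hPne : P.Nonempty := ⟨W, hW, le_rfl, hstab⟩
  obtain ⟨U, hUP, hUmin⟩ := (wellFounded_lt (α := Submodule K V)).has_min P hPne
  obtain ⟨hU0, hUW, hUstab⟩ := hUP
  -- every `T ∈ 𝒜` acts on `U` as a scalar
  have hscalar : ∀ T ∈ 𝒜, ∃ μ : K, ∀ u ∈ U, T u = μ • u := by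
    intro T hT
    haveI : Nontrivial U := Submodule.nontrivial_iff_ne_bot.mpr hU0
    obtain ⟨c, hc⟩ := Module.End.exists_eigenvalue (T.restrict (hUstab T hT))
    obtain ⟨u, hu⟩ := hc.exists_hasEigenvector
    have hu1 : T (u : V) = c • (u : V) := by
      have := hu.apply_eq_smul
      have h2 := congrArg Subtype.val this
      simpa using h2
    have hu0 : (u : V) ≠ 0 := by
      intro h
      exact hu.2 (Subtype.ext h)
    refine ⟨c, ?_⟩
    -- the eigenspace of `T` inside `U`
    let U' : Submodule K V := U ⊓ LinearMap.ker (T - c • (1 : Module.End K V))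
    have hU'mem : ∀ x, x ∈ U' ↔ x ∈ U ∧ T x = c • x := by
      intro x
      simp only [U', Submodule.mem_inf, LinearMap.mem_ker, LinearMap.sub_apply,
        LinearMap.smul_apply, Module.End.one_apply, sub_eq_zero]
    have hU'P : U' ∈ P := by
      refine ⟨?_, inf_le_left.trans hUW, ?_⟩
      · intro h
        have : (u : V) ∈ U' := (hU'mem _).2 ⟨u.2, hu1⟩
        rw [h] at this
        exact hu0 ((Submodule.mem_bot K).1 this)
      · intro T' hT' x hx
        obtain ⟨hxU, hxT⟩ := (hU'mem x).1 hx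
        refine (hU'mem _).2 ⟨hUstab T' hT' x hxU, ?_⟩
        have hc' : T (T' x) = T' (T x) := by
          have := (hcomm T hT T' hT').eq
          exact congrArg (fun f : Module.End K V => f x) this
        rw [hc', hxT, map_smul]
    have hle : U' ≤ U := inf_le_left
    have hnlt : ¬ U' < U := hUmin U' hU'P
    have heq : U' = U := by
      rcases lt_or_eq_of_le hle with h | h
      · exact absurd h hnlt
      · exact h
    intro x hx
    have : x ∈ U' := heq ▸ hx
    exact ((hU'mem x).1 this).2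
  obtain ⟨v, hvU, hv0⟩ := Submodule.exists_mem_ne_zero_of_ne_bot hU0
  exact ⟨v, hUW hvU, hv0, fun T hT => by
    obtain ⟨μ, hμ⟩ := hscalar T hT
    exact ⟨μ, hμ v hvU⟩⟩

end Fermat.Agent.S49
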