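import Mathlib
import Fermat.Agent.S49.CommonEigen

set_option autoImplicit false
set_option linter.style.haveILetI false

namespace Fermat.Agent.S49

open Module

/-- Abstract Deligne–Serre lemma, part 1: a commutative ring `A`, finite over `ℤ`, acting
faithfully on a finite dimensional complex vector space, has for each prime ideal `𝔪` a common
eigenvector whose eigencharacter has kernel contained in `𝔪`. -/
theorem exists_eigenchar_ker_le {V : Type*} [AddCommGroup V] [Module ℂ V]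
    [FiniteDimensional ℂ V] {A : Type*} [CommRing A] [Module.Finite ℤ A]
    (ρ : A →+* Module.End ℂ V) (hρ : Function.Injective ρ)
    (𝔪 : Ideal A) [h𝔪 : 𝔪.IsPrime] :
    ∃ (v : V) (χ : A →+* ℂ), v ≠ 0 ∧ (∀ T : A, ρ T v = χ T • v) ∧ RingHom.ker χ ≤ 𝔪 := by
  classical
  haveI : IsNoetherianRing A := IsNoetherianRing.of_finite ℤ A
  haveI : Algebra.IsIntegral ℤ A := Algebra.IsIntegral.of_finite ℤ A
  obtain ⟨𝔭, h𝔭min, h𝔭le⟩ := Ideal.exists_minimalPrimes_le (bot_le : (⊥ : Ideal A) ≤ 𝔪)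
  haveI h𝔭prime : 𝔭.IsPrime := h𝔭min.1.1
  have hann : Module.annihilator A A = ⊥ := by
    rw [eq_bot_iff]
    intro a ha
    have := (Module.mem_annihilator.1 ha) (1 : A)
    simpa using this
  have hass : 𝔭 ∈ associatedPrimes A A := by
    apply Module.associatedPrimes.minimalPrimes_annihilator_subset_associatedPrimes A A
    rw [hann]
    exact h𝔭min
  obtain ⟨-, t, ht⟩ := (isAssociatedPrime_iff (I := 𝔭) (M := A)).1 hass
  have hmem : ∀ a : A, a ∈ 𝔭 ↔ a * t = 0 := by
    intro a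
    rw [ht, Submodule.mem_colon_singleton]
    simp
  have ht0 : t ≠ 0 := by
    intro h
    apply h𝔭prime.ne_top
    rw [Ideal.eq_top_iff_one, hmem, h, mul_zero]
  have hρt : ρ t ≠ 0 := fun h => ht0 (hρ (by rw [h, map_zero]))
  obtain ⟨y, hy⟩ : ∃ y, ρ t y ≠ 0 := by
    by_contra hcon
    push Not at hcon
    exact hρt (LinearMap.ext hcon)
  -- the subspace killed by `𝔭`
  let W : Submodule ℂ V := ⨅ a ∈ 𝔭, LinearMap.ker (ρ a)
  have hWmem : ∀ x, x ∈ W ↔ ∀ a ∈ 𝔭, ρ a x = 0 := by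
    intro x
    simp only [W, Submodule.mem_iInf, LinearMap.mem_ker]
  have hW : W ≠ ⊥ := by
    intro h
    have : ρ t y ∈ W := by
      rw [hWmem]
      intro a ha
      have : ρ a (ρ t y) = ρ (a * t) y := by rw [map_mul]; rfl
      rw [this, (hmem a).1 ha, map_zero]; rfl
    rw [h] at this
    exact hy ((Submodule.mem_bot ℂ).1 this)
  have hcomm : ∀ T ∈ Set.range ρ, ∀ T' ∈ Set.range ρ, Commute T T' := by
    rintro _ ⟨a, rfl⟩ _ ⟨b, rfl⟩
    exact (Commute.all a b).map ρ
  have hstab : ∀ T ∈ Set.range ρ, ∀ w ∈ W, T w ∈ W := by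
    rintro _ ⟨b, rfl⟩ w hw
    rw [hWmem] at hw ⊢
    intro a ha
    have : ρ a (ρ b w) = ρ b (ρ a w) := by
      have h1 : ρ a * ρ b = ρ b * ρ a := ((Commute.all a b).map ρ).eq
      exact congrArg (fun f : Module.End ℂ V => f w) h1
    rw [this, hw a ha, map_zero]
  obtain ⟨v, hvW, hv0, hv⟩ := exists_common_eigenvector (Set.range ρ) hcomm W hW hstab
  have hv' : ∀ a : A, ∃ μ : ℂ, ρ a v = μ • v := fun a => hv (ρ a) ⟨a, rfl⟩
  choose χ hχ using hv'
  have huniq : ∀ {μ μ' : ℂ}, μ • v = μ' • v → μ = μ' := by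
    intro μ μ' h
    exact smul_left_injective ℂ hv0 h
  let χ' : A →+* ℂ :=
    { toFun := χ
      map_one' := by
        apply huniq
        rw [← hχ 1, map_one, one_smul]; rfl
      map_mul' := by
        intro a b
        apply huniq
        rw [← hχ (a * b), map_mul, Module.End.mul_apply, hχ b, map_smul, hχ a, smul_smul,
          mul_comm]
      map_zero' := by
        apply huniq
        rw [← hχ 0, map_zero, zero_smul]; rfl
      map_add' := by
        intro a b
        apply huniq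
        rw [← hχ (a + b), map_add, LinearMap.add_apply, hχ a, hχ b, add_smul] }
  have hχ' : ∀ a : A, ρ a v = χ' a • v := hχ
  have h𝔭ker : 𝔭 ≤ RingHom.ker χ' := by
    intro a ha
    rw [RingHom.mem_ker]
    apply huniq
    rw [← hχ' a, zero_smul]
    exact (hWmem v).1 hvW a ha
  have hkerℤ : (RingHom.ker χ').comap (algebraMap ℤ A) = ⊥ := by
    rw [eq_bot_iff]
    intro n hn
    rw [Ideal.mem_comap, RingHom.mem_ker] at hn
    have : ((n : ℤ) : ℂ) = 0 := by
      rw [← hn]; simp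
    rw [Ideal.mem_bot]
    exact_mod_cast this
  have hker𝔭 : RingHom.ker χ' ≤ 𝔭 := by
    intro x hx
    by_contra hx𝔭
    have hlt := Ideal.comap_lt_comap_of_integral_mem_sdiff (R := ℤ) h𝔭ker
      ⟨hx, hx𝔭⟩ (Algebra.IsIntegral.isIntegral x)
    rw [hkerℤ] at hlt
    exact not_lt_bot hlt
  exact ⟨v, χ', hv0, hχ', hker𝔭.trans h𝔭le⟩

/-- Abstract Deligne–Serre lemma, part 2: a character of a finite `ℤ`-algebra takes values in
algebraic integers, and maximal ideals containing its kernel lift along it. -/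
theorem exists_integral_lift {A : Type*} [CommRing A] [Module.Finite ℤ A]
    (χ : A →+* ℂ) (𝔪 : Ideal A) [h𝔪 : 𝔪.IsMaximal] (hker : RingHom.ker χ ≤ 𝔪) :
    ∃ (χ' : A →+* integralClosure ℤ ℂ) (𝔪' : Ideal (integralClosure ℤ ℂ)),
      (∀ T, (χ' T : ℂ) = χ T) ∧ 𝔪'.IsMaximal ∧ ∀ T ∈ 𝔪, χ' T ∈ 𝔪' := by
  classical
  haveI : Algebra.IsIntegral ℤ A := Algebra.IsIntegral.of_finite ℤ A
  have hint : ∀ a : A, χ a ∈ integralClosure ℤ ℂ := by
    intro a
    have h1 : IsIntegral ℤ a := Algebra.IsIntegral.isIntegral a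
    exact h1.map (χ.toIntAlgHom)
  let χ' : A →+* integralClosure ℤ ℂ :=
    ((χ.toIntAlgHom).codRestrict (integralClosure ℤ ℂ) hint : A →ₐ[ℤ] integralClosure ℤ ℂ)
  have hχ' : ∀ T, (χ' T : ℂ) = χ T := fun T => rfl
  letI : Algebra A (integralClosure ℤ ℂ) := χ'.toAlgebra
  haveI : Algebra.IsIntegral A (integralClosure ℤ ℂ) := by
    refine ⟨fun x => ?_⟩
    have hx : IsIntegral ℤ x := Algebra.IsIntegral.isIntegral x
    exact hx.tower_top
  have hker' : RingHom.ker (algebraMap A (integralClosure ℤ ℂ)) ≤ 𝔪 := by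
    intro a ha
    apply hker
    rw [RingHom.mem_ker] at ha ⊢
    have : (χ' a : ℂ) = 0 := by
      have h2 : χ' a = 0 := ha
      rw [h2]; rfl
    rw [← hχ' a, this]
  obtain ⟨Q, hQmax, hQ⟩ := Ideal.exists_ideal_over_maximal_of_isIntegral 𝔪 hker'
  refine ⟨χ', Q, hχ', hQmax, ?_⟩
  intro T hT
  have : T ∈ Ideal.comap (algebraMap A (integralClosure ℤ ℂ)) Q := by rw [hQ]; exact hT
  exact this

end Fermat.Agent.S49
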