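import Mathlib

set_option autoImplicit false
set_option linter.style.haveILetI false

namespace Fermat.Agent.S49

/-- The Hecke recurrence satisfied by the `q`-coefficients `b` of an eigenvector with
eigenvalues `lam p` and "characters" `e p`. -/
def HeckeRel (e lam b : ℕ → ℂ) : Prop :=
  ∀ p : ℕ, p.Prime → ∀ n : ℕ,
    b (n * p) + (if p ∣ n then e p * b (n / p) else 0) = lam p * b n

theorem HeckeRel.eq_zero_of_one {e lam b : ℕ → ℂ} (h : HeckeRel e lam b) (h1 : b 1 = 0) :
    ∀ n : ℕ, 1 ≤ n → b n = 0 := by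
  intro n
  induction n using Nat.strong_induction_on with
  | _ n ih =>
    intro hn
    rcases Nat.eq_or_lt_of_le hn with h1n | h1n
    · rw [← h1n]; exact h1
    · obtain ⟨p, hp, hpn⟩ := Nat.exists_prime_and_dvd (show n ≠ 1 by omega)
      obtain ⟨m, rfl⟩ := hpn
      have hm0 : m ≠ 0 := by
        rintro rfl
        simp at hn
      have hm1 : 1 ≤ m := Nat.one_le_iff_ne_zero.mpr hm0
      have hmlt : m < p * m := by
        have := hp.two_le
        nlinarith
      have hrel := h p hp m
      rw [mul_comm m p] at hrel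
      have hbm : b m = 0 := ih m hmlt hm1
      rw [hbm, mul_zero] at hrel
      by_cases hpm : p ∣ m
      · rw [if_pos hpm] at hrel
        have hq1 : 1 ≤ m / p := Nat.div_pos (Nat.le_of_dvd (by omega) hpm) hp.pos
        have hqlt : m / p < p * m := lt_of_le_of_lt (Nat.div_le_self m p) hmlt
        rw [ih (m / p) hqlt hq1, mul_zero, add_zero] at hrel
        exact hrel
      · rw [if_neg hpm, add_zero] at hrel
        exact hrel

theorem HeckeRel.lam_eq {e lam b : ℕ → ℂ} (h : HeckeRel e lam b) (h1 : b 1 = 1)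
    {p : ℕ} (hp : p.Prime) : lam p = b p := by
  have hrel := h p hp 1
  have hp1 : ¬ p ∣ 1 := by
    rw [Nat.dvd_one]; exact hp.ne_one
  rw [if_neg hp1, add_zero, one_mul, h1, mul_one] at hrel
  exact hrel.symm

theorem HeckeRel.mul_of_coprime {e lam b : ℕ → ℂ} (h : HeckeRel e lam b) (h1 : b 1 = 1) :
    ∀ m n : ℕ, m.Coprime n → b (m * n) = b m * b n := by
  intro m
  induction m using Nat.strong_induction_on with
  | _ m ih =>
    intro n hmn
    rcases Nat.eq_zero_or_pos m with rfl | hmpos
    · have hn1 : n = 1 := by simpa using hmn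
      subst hn1
      simp [h1]
    rcases Nat.eq_or_lt_of_le (Nat.one_le_iff_ne_zero.mpr hmpos.ne') with h1m | h1m
    · rw [← h1m, one_mul, h1, one_mul]
    obtain ⟨p, hp, hpm⟩ := Nat.exists_prime_and_dvd (show m ≠ 1 by omega)
    obtain ⟨m', rfl⟩ := hpm
    have hm'0 : m' ≠ 0 := by
      rintro rfl
      simp at hmpos
    have hm'lt : m' < p * m' := by
      have := hp.two_le
      have : 1 ≤ m' := Nat.one_le_iff_ne_zero.mpr hm'0
      nlinarith
    have hcop' : m'.Coprime n := Nat.Coprime.coprime_dvd_left (Dvd.intro_left p rfl) hmn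
    have hpn : ¬ p ∣ n := by
      intro hpn
      have hpc : p.Coprime n := Nat.Coprime.coprime_dvd_left (Dvd.intro m' rfl) hmn
      have : p ∣ 1 := by
        have := Nat.dvd_gcd (dvd_refl p) hpn
        rwa [hpc.gcd_eq_one] at this
      exact hp.ne_one (Nat.dvd_one.mp this)
    have hrel1 := h p hp (m' * n)
    have hrel2 := h p hp m'
    have e1 : p * m' * n = m' * n * p := by ring
    have e2 : p * m' = m' * p := by ring
    rw [e1, e2]
    have hdvd_iff : p ∣ m' * n ↔ p ∣ m' := by
      constructor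
      · intro hd
        rcases (Nat.Prime.dvd_mul hp).1 hd with hd | hd
        · exact hd
        · exact absurd hd hpn
      · intro hd
        exact Dvd.dvd.mul_right hd n
    have hb1 : b (m' * n) = b m' * b n := ih m' hm'lt n hcop'
    by_cases hpm' : p ∣ m'
    · rw [if_pos (hdvd_iff.2 hpm')] at hrel1
      rw [if_pos hpm'] at hrel2
      have hdiv : m' * n / p = (m' / p) * n := by
        obtain ⟨c, rfl⟩ := hpm'
        rw [Nat.mul_div_cancel_left c hp.pos, mul_assoc, Nat.mul_div_cancel_left _ hp.pos]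
      have hqlt : m' / p < p * m' := lt_of_le_of_lt (Nat.div_le_self m' p) hm'lt
      have hcop'' : (m' / p).Coprime n :=
        Nat.Coprime.coprime_dvd_left (Nat.div_dvd_of_dvd hpm') hcop'
      have hb2 : b (m' / p * n) = b (m' / p) * b n := ih (m' / p) hqlt n hcop''
      rw [hdiv, hb2, hb1] at hrel1
      have : b (m' * n * p) = lam p * (b m' * b n) - e p * (b (m' / p) * b n) := by
        rw [← hrel1]; ring
      rw [this]
      have : b (m' * p) = lam p * b m' - e p * b (m' / p) := by
        rw [← hrel2]; ring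
      rw [this]; ring
    · rw [if_neg (fun hd => hpm' (hdvd_iff.1 hd)), add_zero] at hrel1
      rw [if_neg hpm', add_zero] at hrel2
      rw [hrel1, hrel2, hb1]; ring

theorem HeckeRel.prime_pow {e lam b : ℕ → ℂ} (h : HeckeRel e lam b) (h1 : b 1 = 1)
    {p : ℕ} (hp : p.Prime) (r : ℕ) :
    b (p ^ (r + 2)) = b p * b (p ^ (r + 1)) - e p * b (p ^ r) := by
  have hrel := h p hp (p ^ (r + 1))
  have hd : p ∣ p ^ (r + 1) := dvd_pow_self p (Nat.succ_ne_zero r)
  rw [if_pos hd, h.lam_eq h1 hp] at hrel
  have e1 : p ^ (r + 1) * p = p ^ (r + 2) := by ring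
  have e2 : p ^ (r + 1) / p = p ^ r := by
    rw [pow_succ, Nat.mul_div_cancel _ hp.pos]
  rw [e1, e2] at hrel
  rw [← hrel]; ring

end Fermat.Agent.S49
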