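import Mathlib
import Fermat.Agent.S49.QCoeff
import Fermat.Agent.S49.Recurrence

set_option autoImplicit false
set_option linter.style.haveILetI false

namespace Fermat.Agent.S49

open ModularFormClass CongruenceSubgroup UpperHalfPlane

variable {N : ℕ} [NeZero N]

/-- The weight-2 level-`N` "character": `p` if `p ∤ N` and `0` otherwise. -/
noncomputable def wt2Char (N : ℕ) (p : ℕ) : ℂ := if p ∣ N then 0 else (p : ℂ)

theorem heckeRel_of_eigen (f : CuspForm (Gamma0 N) 2) (lam : ℕ → ℂ)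
    (hT : ∀ (p : ℕ) (hp : p.Prime) (hpN : ¬ p ∣ N), CuspForm.heckeTLin 2 hp hpN f = lam p • f)
    (hU : ∀ (p : ℕ) (_ : p.Prime) (hpN : p ∣ N), CuspForm.heckeULin 2 hpN f = lam p • f) :
    HeckeRel (wt2Char N) lam (fun n => qCoeff ⇑f n) := by
  intro p hp n
  by_cases hpN : p ∣ N
  · have h1 := qCoeff_heckeULin hp hpN f n
    rw [hU p hp hpN, qCoeff_smul_cusp] at h1
    simp only [wt2Char, if_pos hpN, zero_mul, ite_self, add_zero]
    exact h1.symm
  · have h1 := qCoeff_heckeTLin hp hpN f n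
    rw [hT p hp hpN, qCoeff_smul_cusp] at h1
    simp only [wt2Char, if_neg hpN]
    rw [h1]
    norm_num

theorem exists_normalized_eigenform (f : CuspForm (Gamma0 N) 2) (hf : f ≠ 0) (lam : ℕ → ℂ)
    (hT : ∀ (p : ℕ) (hp : p.Prime) (hpN : ¬ p ∣ N), CuspForm.heckeTLin 2 hp hpN f = lam p • f)
    (hU : ∀ (p : ℕ) (_ : p.Prime) (hpN : p ∣ N), CuspForm.heckeULin 2 hpN f = lam p • f) :
    ∃ g : CuspForm (Gamma0 N) 2, g.IsNormalizedEigenform ∧
      ∀ p : ℕ, p.Prime → qCoeff ⇑g p = lam p := by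
  have hrel := heckeRel_of_eigen f lam hT hU
  -- the first coefficient is nonzero
  have hb1 : qCoeff ⇑f 1 ≠ 0 := by
    intro h1
    apply hf
    apply eq_zero_of_forall_qCoeff
    intro n
    rcases Nat.eq_zero_or_pos n with rfl | hn
    · exact qCoeff_zero_index f
    · exact hrel.eq_zero_of_one h1 n hn
  set c : ℂ := (qCoeff ⇑f 1)⁻¹ with hc
  have hc0 : c ≠ 0 := inv_ne_zero hb1
  let g : CuspForm (Gamma0 N) 2 := c • f
  have hgT : ∀ (p : ℕ) (hp : p.Prime) (hpN : ¬ p ∣ N),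
      CuspForm.heckeTLin 2 hp hpN g = lam p • g := by
    intro p hp hpN
    simp only [g, map_smul, hT p hp hpN]
    rw [smul_comm]
  have hgU : ∀ (p : ℕ) (_ : p.Prime) (hpN : p ∣ N),
      CuspForm.heckeULin 2 hpN g = lam p • g := by
    intro p hp hpN
    simp only [g, map_smul, hU p hp hpN]
    rw [smul_comm]
  have hrelg := heckeRel_of_eigen g lam hgT hgU
  have hg1 : qCoeff ⇑g 1 = 1 := by
    simp only [g]
    rw [qCoeff_smul_cusp, hc, inv_mul_cancel₀ hb1]
  refine ⟨g, ⟨hg1, ?_, ?_, ?_⟩, ?_⟩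
  · exact hrelg.mul_of_coprime hg1
  · intro p r hp hpN
    have := hrelg.prime_pow hg1 hp r
    simp only [wt2Char, if_neg hpN] at this
    exact this
  · intro p r hp hpN
    have := hrelg.prime_pow hg1 hp r
    simp only [wt2Char, if_pos hpN, zero_mul, sub_zero] at this
    exact this
  · intro p hp
    exact (hrelg.lam_eq hg1 hp).symm

end Fermat.Agent.S49
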