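import Mathlib
import Fermat.Agent.S49.QCoeff

set_option autoImplicit false
set_option linter.style.haveILetI false

namespace Fermat.Agent.S49

open ModularFormClass CongruenceSubgroup UpperHalfPlane

variable {N : ℕ} [NeZero N]

/-- Truncated `q`-expansion up to the Sturm bound, as a `ℂ`-linear map. -/
noncomputable def truncLin (N : ℕ) (k : ℤ) :
    CuspForm (Gamma0 N) k →ₗ[ℂ] (Fin ((k * (Gamma0 N).index).toNat / 12 + 1) → ℂ) :=
  LinearMap.pi fun i => qCoeffLin N k i

theorem truncLin_injective (N : ℕ) [NeZero N] (k : ℤ) : Function.Injective (truncLin N k) := by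
  refine (injective_iff_map_eq_zero _).mpr fun f hf ↦ ?_
  have hmf : (ModularFormClass.modularForm f : ModularForm (Gamma0 N) k) = 0 := by
    refine ModularForm.sturm_bound_Gamma0 N _ fun n hn ↦ ?_
    have := congrFun hf ⟨n, Nat.lt_succ_of_le hn⟩
    simpa [truncLin, qCoeff] using this
  have hcoe : (⇑f : ℍ → ℂ) = 0 := by
    have := congrArg (fun F : ModularForm (Gamma0 N) k ↦ (⇑F : ℍ → ℂ)) hmf
    simpa using this
  exact DFunLike.coe_injective (hcoe.trans (by simp))

theorem finiteDimensional_cuspForm (N : ℕ) [NeZero N] (k : ℤ) :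
    FiniteDimensional ℂ (CuspForm (Gamma0 N) k) :=
  FiniteDimensional.of_injective (truncLin N k) (truncLin_injective N k)

/-- Given an integral basis, the Hecke algebra is a finite `ℤ`-module. -/
theorem heckeAlgebra_finite (h : CuspForm.HasIntegralBasis N) (S : Set ℕ) :
    Module.Finite ℤ (CuspForm.heckeAlgebra N 2 S) := by
  classical
  obtain ⟨G, hG⟩ := CuspForm.intLattice_fg N 2
  -- `G` spans the space of cusp forms over `ℂ`
  have hspan : Submodule.span ℂ (G : Set (CuspForm (Gamma0 N) 2)) = ⊤ := by
    rw [eq_top_iff, ← h]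
    apply Submodule.span_le.2
    intro f hf
    have hfL : f ∈ CuspForm.intLattice N 2 := (mem_qIntegralSet_iff f).1 hf
    rw [← hG] at hfL
    exact Submodule.span_subset_span ℤ ℂ _ hfL
  haveI : Module.Finite ℤ (CuspForm.intLattice N 2) :=
    Module.Finite.of_fg (CuspForm.intLattice_fg N 2)
  have hGL : ∀ g ∈ G, g ∈ CuspForm.intLattice N 2 := by
    intro g hg
    rw [← hG]
    exact Submodule.subset_span hg
  let Φ : CuspForm.heckeAlgebra N 2 S →ₗ[ℤ] (G → CuspForm.intLattice N 2) :=
    { toFun := fun T g =>
        ⟨(T : Module.End ℂ (CuspForm (Gamma0 N) 2)) g.1,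
          CuspForm.mem_intLattice_of_mem_heckeAlgebra (by norm_num) T.2 (hGL g.1 g.2)⟩
      map_add' := by
        intro T T'
        funext g
        apply Subtype.ext
        simp
      map_smul' := by
        intro c T
        funext g
        apply Subtype.ext
        simp }
  have hΦ : Function.Injective Φ := by
    refine (injective_iff_map_eq_zero _).mpr fun T hT ↦ ?_
    apply Subtype.ext
    apply LinearMap.ext_on hspan
    intro g hg
    have := congrFun hT ⟨g, hg⟩
    have h2 := congrArg Subtype.val this
    simpa [Φ] using h2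
  exact Module.Finite.of_injective Φ hΦ

end Fermat.Agent.S49
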