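import Mathlib
import Fermat.Prelude.Def_CuspForm_IntegralLattice
import Fermat.Prelude.Def_FormalHecke_Eigensystem

set_option autoImplicit false
set_option linter.style.haveILetI false

namespace Fermat.Agent.S49

open EisensteinWeightOne

theorem chiNegThree_zmod (n : ℕ) : ((chiNegThree n : ℤ) : ZMod 3) = (n : ZMod 3) := by
  have h3 : (n : ZMod 3) = ((n % 3 : ℕ) : ZMod 3) := by
    rw [ZMod.natCast_mod]
  rw [h3]
  unfold chiNegThree
  have hlt : n % 3 < 3 := Nat.mod_lt n (by norm_num)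
  interval_cases h : n % 3
  · simp
  · simp
  · simp only [show (2 : ℕ) ≠ 1 by norm_num, if_false, if_true]
    decide

theorem map_e1Chi3In :
    PowerSeries.map (Int.castRingHom (ZMod 3)) (e1Chi3In ℤ) = 1 := by
  ext j
  simp only [e1Chi3In, e1Chi3, PowerSeries.coeff_map, PowerSeries.coeff_mk, PowerSeries.coeff_one]
  by_cases hj : j = 0
  · simp [hj]
  · simp only [hj, if_false]
    have : (6 : ZMod 3) = 0 := by decide
    simp only [eq_intCast, Int.cast_id, Int.cast_mul, Int.cast_ofNat, this, zero_mul]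

theorem bridgeProduct_coeff_zmod (a : ℕ → ℤ) (n : ℕ) :
    ((PowerSeries.coeff n (bridgeProduct a) : ℤ) : ZMod 3) = ((a n : ℤ) : ZMod 3) := by
  have h1 : PowerSeries.map (Int.castRingHom (ZMod 3)) (bridgeProduct a) =
      PowerSeries.map (Int.castRingHom (ZMod 3)) (PowerSeries.mk a) := by
    rw [bridgeProduct, map_mul, map_e1Chi3In, mul_one]
  have h2 := congrArg (PowerSeries.coeff n) h1
  simpa [PowerSeries.coeff_map, PowerSeries.coeff_mk] using h2

/-- If `af ≡ bridgeProduct a` mod 3 then `af ≡ a` mod 3. -/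
theorem zmod_eq_of_bridge {a af : ℕ → ℤ}
    (h : ∀ n, (3 : ℤ) ∣ af n - PowerSeries.coeff n (bridgeProduct a)) (n : ℕ) :
    ((af n : ℤ) : ZMod 3) = ((a n : ℤ) : ZMod 3) := by
  rw [← bridgeProduct_coeff_zmod a n]
  have := (ZMod.intCast_zmod_eq_zero_iff_dvd (af n - PowerSeries.coeff n (bridgeProduct a)) 3).2
    (by exact_mod_cast h n)
  rw [Int.cast_sub, sub_eq_zero] at this
  exact this

/-- The weight-2 Hecke relation mod 3 for a sequence congruent to a `χ₋₃`-eigensystem. -/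
theorem hecke_congr_mod_three {N : ℕ} {a af : ℕ → ℤ}
    (heig : FormalHecke.IsEigensystem
      (fun ℓ => if ℓ ∣ N then 0 else ((chiNegThree ℓ : ℤ) : ℤ)) a)
    (haf : ∀ n, ((af n : ℤ) : ZMod 3) = ((a n : ℤ) : ZMod 3))
    {ℓ : ℕ} (hℓ : ℓ.Prime) (n : ℕ) :
    (3 : ℤ) ∣ af (n * ℓ) + (if ℓ ∣ n then (if ℓ ∣ N then 0 else (ℓ : ℤ)) * af (n / ℓ) else 0)
      - a ℓ * af n := by
  have hrel := heig.2 ℓ hℓ n
  show ((3 : ℕ) : ℤ) ∣ _
  rw [← ZMod.intCast_zmod_eq_zero_iff_dvd]
  have hrel' := congrArg (fun x : ℤ => (x : ZMod 3)) hrel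
  simp only at hrel'
  rw [mul_comm ℓ n] at hrel'
  by_cases hn : ℓ ∣ n
  · by_cases hN : ℓ ∣ N
    · simp only [hn, hN, if_true, zero_mul, add_zero] at hrel' ⊢
      push_cast
      rw [haf, haf, hrel']
      push_cast
      ring
    · simp only [hn, hN, if_true, if_false] at hrel' ⊢
      push_cast at hrel' ⊢
      rw [haf, haf, haf, ← chiNegThree_zmod ℓ, hrel']
      ring
  · simp only [hn, if_false, mul_zero, add_zero] at hrel' ⊢
    push_cast at hrel' ⊢
    rw [haf, haf, hrel']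
    ring

end Fermat.Agent.S49
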