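import Mathlib
import Fermat.Agent.S49.QCoeff
import Fermat.Agent.S49.ModThree

set_option autoImplicit false
set_option linter.style.haveILetI false

namespace Fermat.Agent.S49

open ModularFormClass CongruenceSubgroup UpperHalfPlane EisensteinWeightOne

variable {N : ℕ} [NeZero N]

/-- The Hecke operators sending `f₀` into three times the integral lattice. -/
def congrIdeal (f₀ : CuspForm (Gamma0 N) 2) : Ideal (CuspForm.heckeAlgebra N 2 ∅) where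
  carrier := {T | ∃ g ∈ CuspForm.intLattice N 2,
    (T : Module.End ℂ (CuspForm (Gamma0 N) 2)) f₀ = (3 : ℂ) • g}
  add_mem' := by
    rintro T T' ⟨g, hg, h⟩ ⟨g', hg', h'⟩
    refine ⟨g + g', add_mem hg hg', ?_⟩
    simp [h, h']
  zero_mem' := ⟨0, zero_mem _, by simp⟩
  smul_mem' := by
    rintro T' T ⟨g, hg, h⟩
    refine ⟨(T' : Module.End ℂ (CuspForm (Gamma0 N) 2)) g,
      CuspForm.mem_intLattice_of_mem_heckeAlgebra (by norm_num) T'.2 hg, ?_⟩
    simp [h]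

theorem mem_congrIdeal {f₀ : CuspForm (Gamma0 N) 2} {T : CuspForm.heckeAlgebra N 2 ∅} :
    T ∈ congrIdeal f₀ ↔ ∃ g ∈ CuspForm.intLattice N 2,
      (T : Module.End ℂ (CuspForm (Gamma0 N) 2)) f₀ = (3 : ℂ) • g := Iff.rfl

omit [NeZero N] in
/-- A cusp form whose `q`-coefficients are integers divisible by 3 is three times an integral
form. -/
theorem exists_three_smul (F : CuspForm (Gamma0 N) 2) (c : ℕ → ℤ)
    (hc : ∀ n, qCoeff ⇑F n = (c n : ℂ)) (h3 : ∀ n, (3 : ℤ) ∣ c n) :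
    ∃ g ∈ CuspForm.intLattice N 2, F = (3 : ℂ) • g := by
  refine ⟨(3 : ℂ)⁻¹ • F, ?_, ?_⟩
  · rw [mem_intLattice_iff]
    intro n
    obtain ⟨m, hm⟩ := h3 n
    refine ⟨m, ?_⟩
    rw [qCoeff_smul_cusp, hc, hm]
    push_cast
    field_simp
  · rw [smul_smul, mul_inv_cancel₀ (by norm_num : (3 : ℂ) ≠ 0), one_smul]

theorem three_mem_congrIdeal {f₀ : CuspForm (Gamma0 N) 2} (hf₀ : f₀ ∈ CuspForm.intLattice N 2) :
    algebraMap ℤ (CuspForm.heckeAlgebra N 2 ∅) 3 ∈ congrIdeal f₀ := by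
  rw [mem_congrIdeal]
  refine ⟨f₀, hf₀, ?_⟩
  rw [Subalgebra.coe_algebraMap, Algebra.algebraMap_eq_smul_one, LinearMap.smul_apply,
    Module.End.one_apply]
  exact (Int.cast_smul_eq_zsmul ℂ 3 f₀).symm

theorem congrIdeal_ne_top {f₀ : CuspForm (Gamma0 N) 2} {a af : ℕ → ℤ}
    (haf : ∀ n, (af n : ℂ) = qCoeff ⇑f₀ n)
    (hcong : ∀ n, ((af n : ℤ) : ZMod 3) = ((a n : ℤ) : ZMod 3)) (ha1 : a 1 = 1) :
    congrIdeal f₀ ≠ ⊤ := by
  intro htop
  have h1 : (1 : CuspForm.heckeAlgebra N 2 ∅) ∈ congrIdeal f₀ := by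
    rw [htop]; trivial
  obtain ⟨g, hg, h⟩ := mem_congrIdeal.1 h1
  obtain ⟨m, hm⟩ := (mem_intLattice_iff g).1 hg 1
  have hf : f₀ = (3 : ℂ) • g := by
    simpa using h
  have h2 : (af 1 : ℂ) = ((3 * m : ℤ) : ℂ) := by
    rw [haf 1, hf, qCoeff_smul_cusp, hm]
    push_cast
    ring
  have h3 : af 1 = 3 * m := by exact_mod_cast h2
  have h4 := hcong 1
  rw [h3, ha1] at h4
  push_cast at h4
  have h5 : (3 : ZMod 3) = 0 := by decide
  rw [h5, zero_mul] at h4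
  exact zero_ne_one h4

theorem T_sub_mem_congrIdeal {f₀ : CuspForm (Gamma0 N) 2} {a af : ℕ → ℤ}
    (heig : FormalHecke.IsEigensystem
      (fun ℓ => if ℓ ∣ N then 0 else ((chiNegThree ℓ : ℤ) : ℤ)) a)
    (haf : ∀ n, (af n : ℂ) = qCoeff ⇑f₀ n)
    (hcong : ∀ n, ((af n : ℤ) : ZMod 3) = ((a n : ℤ) : ZMod 3))
    {ℓ : ℕ} (hℓ : ℓ.Prime) (hℓN : ¬ ℓ ∣ N) :
    (CuspForm.heckeAlgebra.T hℓ hℓN (Set.notMem_empty _) : CuspForm.heckeAlgebra N 2 ∅)
      - algebraMap ℤ (CuspForm.heckeAlgebra N 2 ∅) (a ℓ) ∈ congrIdeal f₀ := by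
  rw [mem_congrIdeal]
  have key := fun n => hecke_congr_mod_three (N := N) heig hcong hℓ n
  simp only [hℓN, if_false] at key
  have hval : ((CuspForm.heckeAlgebra.T hℓ hℓN (Set.notMem_empty _) :
      CuspForm.heckeAlgebra N 2 ∅) - algebraMap ℤ (CuspForm.heckeAlgebra N 2 ∅) (a ℓ) :
      CuspForm.heckeAlgebra N 2 ∅).1 f₀ =
      CuspForm.heckeTLin 2 hℓ hℓN f₀ - ((a ℓ : ℤ) : ℂ) • f₀ := by
    rw [Subalgebra.coe_sub, Subalgebra.coe_algebraMap, Algebra.algebraMap_eq_smul_one,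
      LinearMap.sub_apply, LinearMap.smul_apply, Module.End.one_apply,
      CuspForm.heckeAlgebra.coe_T, Int.cast_smul_eq_zsmul]
  rw [hval]
  refine exists_three_smul _
    (fun n => af (n * ℓ) + (if ℓ ∣ n then (ℓ : ℤ) * af (n / ℓ) else 0) - a ℓ * af n) ?_ key
  intro n
  have hsub : ∀ (F G : CuspForm (Gamma0 N) 2), qCoeff ⇑(F - G) n = qCoeff ⇑F n - qCoeff ⇑G n := by
    intro F G
    have := (qCoeffLin N 2 n).map_sub F G
    simpa using this
  rw [hsub, qCoeff_heckeTLin, qCoeff_smul_cusp]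
  simp only [← haf]
  by_cases hn : ℓ ∣ n
  · simp only [hn, if_true]
    push_cast
    norm_num
  · simp only [hn, if_false]
    push_cast
    ring

end Fermat.Agent.S49
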